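/-
P-CFT row 522 FR-NAT (helper53), part 1: the FUNCTORIALITY DEFINITIONS (a)-(d).

All in namespace `Fermat.Agent.H53`, frame = `Fermat.Agent.H13.Cft`.

* `coneShiftMap α β h : coneShift φ ⟶ coneShift φ'` for a commutative square
  `h : φ ≫ β = α ≫ φ'`; `coneShiftMap_id`, `coneShiftMap_comp`, `coneShiftMap_zero`.
* `locMap 𝔄 f : locComplex 𝔄 M ⟶ locComplex 𝔄 M'`, `resTot_naturality`.
* `ccMap 𝔄 f : ccComplex 𝔄 M ⟶ ccComplex 𝔄 M'`; `ccMap_id`, `ccMap_comp`, `ccMap_zero`,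
  `ccFunctor 𝔄`.
* `dualTwistMap χ f : M'.dualTwist χ ⟶ M.dualTwist χ`; `dualTwistMap_id`, `dualTwistMap_comp`,
  `dualTwistMap_zero`.
* `dualCxMap g : dualCx K' ⟶ dualCx K`; `dualCxMap_id`, `dualCxMap_comp`, `dualCxMap_zero`.
* `dualSideMap 𝔄 f : dualCx (C(M^*(χ))) ⟶ dualCx (C(M'^*(χ)))`; `dualSideMap_id`,
  `dualSideMap_comp`, `dualSideMap_zero`, `dualSideFunctor 𝔄`.
-/
import Fermat.Agent.H13.Cft.Interfaces

set_option autoImplicit false

universe u

open CategoryTheory groupCohomology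

namespace Fermat.Agent.H53

open Fermat.Agent.H13.Cft

/-! ### (a) functoriality of the shifted cone -/

section cone

variable {k : Type u} [CommRing k]
variable {K L K' L' K'' L'' : CochainComplex (ModuleCat.{u} k) ℕ}

/-- Components of the map of shifted cones. -/
noncomputable def coneShiftMapF (α : K ⟶ K') (β : L ⟶ L') : ∀ n, coneX K L n ⟶ coneX K' L' n
  | 0 => α.f 0
  | n + 1 => ModuleCat.ofHom (LinearMap.prodMap (α.f (n + 1)).hom (β.f n).hom)

lemma coneShiftMapF_zero_apply (α : K ⟶ K') (β : L ⟶ L') (a : K.X 0) :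
    (coneShiftMapF α β 0).hom a = (α.f 0).hom a := rfl

lemma coneShiftMapF_succ_apply (α : K ⟶ K') (β : L ⟶ L') (n : ℕ) (a : K.X (n + 1)) (b : L.X n) :
    (coneShiftMapF α β (n + 1)).hom (a, b) = ((α.f (n + 1)).hom a, (β.f n).hom b) := rfl

lemma coneShiftMapF_comm {φ : K ⟶ L} {φ' : K' ⟶ L'} (α : K ⟶ K') (β : L ⟶ L')
    (h : φ ≫ β = α ≫ φ') (n : ℕ) :
    coneShiftMapF α β n ≫ coneD φ' n = coneD φ n ≫ coneShiftMapF α β (n + 1) := by
  have hα : ∀ (i : ℕ) (a : K.X i),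
      (K'.d i (i + 1)).hom ((α.f i).hom a) = (α.f (i + 1)).hom ((K.d i (i + 1)).hom a) := by
    intro i a
    exact LinearMap.congr_fun (congrArg ModuleCat.Hom.hom (α.comm i (i + 1))) a
  have hβ : ∀ (i : ℕ) (b : L.X i),
      (L'.d i (i + 1)).hom ((β.f i).hom b) = (β.f (i + 1)).hom ((L.d i (i + 1)).hom b) := by
    intro i b
    exact LinearMap.congr_fun (congrArg ModuleCat.Hom.hom (β.comm i (i + 1))) b
  have hsq : ∀ (i : ℕ) (a : K.X i),
      (φ'.f i).hom ((α.f i).hom a) = (β.f i).hom ((φ.f i).hom a) := by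
    intro i a
    have := LinearMap.congr_fun
      (congrArg ModuleCat.Hom.hom (congrArg (fun ψ => HomologicalComplex.Hom.f ψ i) h)) a
    exact this.symm
  cases n with
  | zero =>
    have h0 : ∀ a : K.X 0, (coneD φ' 0).hom ((coneShiftMapF α β 0).hom a)
        = (coneShiftMapF α β 1).hom ((coneD φ 0).hom a) := by
      intro a
      rw [coneShiftMapF_zero_apply, coneD_zero_apply, coneD_zero_apply,
        coneShiftMapF_succ_apply, hα, hsq]
    ext a : 2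
    exact h0 a
  | succ n =>
    have h1 : ∀ (a : K.X (n + 1)) (b : L.X n),
        (coneD φ' (n + 1)).hom ((coneShiftMapF α β (n + 1)).hom (a, b))
          = (coneShiftMapF α β (n + 2)).hom ((coneD φ (n + 1)).hom (a, b)) := by
      intro a b
      rw [coneShiftMapF_succ_apply, coneD_succ_apply, coneD_succ_apply,
        coneShiftMapF_succ_apply, hα, hsq, hβ, map_sub]
    ext x : 2
    exact h1 x.1 x.2

/-- **(a)** The map of shifted cones induced by a commutative square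
`φ ≫ β = α ≫ φ'`:  `(a, b) ↦ (α a, β b)`. -/
noncomputable def coneShiftMap {φ : K ⟶ L} {φ' : K' ⟶ L'} (α : K ⟶ K') (β : L ⟶ L')
    (h : φ ≫ β = α ≫ φ') : coneShift φ ⟶ coneShift φ' where
  f n := coneShiftMapF α β n
  comm' i j (hij : _ = _) := by
    subst hij
    simp only [coneShift, CochainComplex.of_d]
    exact coneShiftMapF_comm α β h i

@[simp] lemma coneShiftMap_f {φ : K ⟶ L} {φ' : K' ⟶ L'} (α : K ⟶ K') (β : L ⟶ L')
    (h : φ ≫ β = α ≫ φ') (n : ℕ) : (coneShiftMap α β h).f n = coneShiftMapF α β n := rfl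

lemma coneShiftMap_f_zero_apply {φ : K ⟶ L} {φ' : K' ⟶ L'} (α : K ⟶ K') (β : L ⟶ L')
    (h : φ ≫ β = α ≫ φ') (a : K.X 0) :
    ((coneShiftMap α β h).f 0).hom a = (α.f 0).hom a := rfl

lemma coneShiftMap_f_succ_apply {φ : K ⟶ L} {φ' : K' ⟶ L'} (α : K ⟶ K') (β : L ⟶ L')
    (h : φ ≫ β = α ≫ φ') (n : ℕ) (a : K.X (n + 1)) (b : L.X n) :
    ((coneShiftMap α β h).f (n + 1)).hom (a, b) = ((α.f (n + 1)).hom a, (β.f n).hom b) := rfl

lemma coneShiftMapF_id (K L : CochainComplex (ModuleCat.{u} k) ℕ) (n : ℕ) :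
    coneShiftMapF (𝟙 K) (𝟙 L) n = 𝟙 (coneX K L n) := by
  cases n with
  | zero => rfl
  | succ n =>
    ext x : 2
    rfl

lemma coneShiftMapF_comp (α : K ⟶ K') (β : L ⟶ L') (α' : K' ⟶ K'') (β' : L' ⟶ L'') (n : ℕ) :
    coneShiftMapF (α ≫ α') (β ≫ β') n = coneShiftMapF α β n ≫ coneShiftMapF α' β' n := by
  cases n with
  | zero => rfl
  | succ n =>
    ext x : 2
    rfl

lemma coneShiftMapF_zero (K L K' L' : CochainComplex (ModuleCat.{u} k) ℕ) (n : ℕ) :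
    coneShiftMapF (0 : K ⟶ K') (0 : L ⟶ L') n = 0 := by
  cases n with
  | zero => rfl
  | succ n =>
    ext x : 2
    rfl

lemma coneShiftMap_id (φ : K ⟶ L) :
    coneShiftMap (𝟙 K) (𝟙 L) (by rw [Category.comp_id, Category.id_comp]) = 𝟙 (coneShift φ) := by
  ext n : 1
  exact coneShiftMapF_id K L n

lemma coneShiftMap_comp {φ : K ⟶ L} {φ' : K' ⟶ L'} {φ'' : K'' ⟶ L''}
    (α : K ⟶ K') (β : L ⟶ L') (h : φ ≫ β = α ≫ φ')
    (α' : K' ⟶ K'') (β' : L' ⟶ L'') (h' : φ' ≫ β' = α' ≫ φ'') :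
    coneShiftMap (α ≫ α') (β ≫ β')
        (by rw [← Category.assoc, h, Category.assoc, h', Category.assoc])
      = coneShiftMap α β h ≫ coneShiftMap α' β' h' := by
  ext n : 1
  exact coneShiftMapF_comp α β α' β' n

lemma coneShiftMap_zero (φ : K ⟶ L) (φ' : K' ⟶ L') :
    coneShiftMap (φ := φ) (φ' := φ') (0 : K ⟶ K') (0 : L ⟶ L')
        (by rw [Limits.comp_zero, Limits.zero_comp]) = 0 := by
  ext n : 1
  exact coneShiftMapF_zero K L K' L' n

/-- The cone map only depends on the two vertical maps. -/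
lemma coneShiftMap_congr {φ : K ⟶ L} {φ' : K' ⟶ L'} {α α' : K ⟶ K'} {β β' : L ⟶ L'}
    (hα : α = α') (hβ : β = β') (h : φ ≫ β = α ≫ φ') :
    coneShiftMap α β h = coneShiftMap α' β' (by rw [← hα, ← hβ, h]) := by
  subst hα hβ
  rfl

end cone

/-! ### (b) functoriality of the compact-support complex -/

section cc

variable {k G : Type u} [CommRing k] [Group G] (𝔄 : ArithDatum k G)
variable {M M' M'' : Rep.{u} k G}

/-- The product of the local level maps. -/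
noncomputable def locMap (f : M ⟶ M') : locComplex 𝔄 M ⟶ locComplex 𝔄 M' where
  f n := ModuleCat.ofHom (LinearMap.pi fun v =>
    ((lvlMap (𝔄.lvlv v) ((Rep.resFunctor (𝔄.loc v)).map f)).f n).hom ∘ₗ LinearMap.proj v)
  comm' i j (hij : _ = _) := by
    subst hij
    ext x : 2
    funext v
    have := LinearMap.congr_fun (congrArg ModuleCat.Hom.hom
      ((lvlMap (𝔄.lvlv v) ((Rep.resFunctor (𝔄.loc v)).map f)).comm i (i + 1))) (x v)
    simp only [CochainComplex.of.d, dif_pos, eqToHom_refl, Category.comp_id, ModuleCat.hom_comp,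
      LinearMap.comp_apply] at this
    simp only [locComplex, CochainComplex.of.d, dif_pos, eqToHom_refl, Category.comp_id,
      ModuleCat.hom_comp]
    exact this

@[simp] lemma locMap_f_apply (f : M ⟶ M') (n : ℕ)
    (x : ∀ v, lvlCochains (𝔄.lvlv v) (Rep.res (𝔄.loc v) M) n) (v : 𝔄.ι) :
    (((locMap 𝔄 f).f n).hom x : ∀ v, lvlCochains (𝔄.lvlv v) (Rep.res (𝔄.loc v) M') n) v
      = ((lvlMap (𝔄.lvlv v) ((Rep.resFunctor (𝔄.loc v)).map f)).f n).hom (x v) := rfl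

lemma locMap_id (M : Rep.{u} k G) : locMap 𝔄 (𝟙 M) = 𝟙 (locComplex 𝔄 M) := by
  ext n x : 3
  rfl

lemma locMap_comp (f : M ⟶ M') (g : M' ⟶ M'') :
    locMap 𝔄 (f ≫ g) = locMap 𝔄 f ≫ locMap 𝔄 g := by
  ext n x : 3
  rfl

lemma locMap_zero (M M' : Rep.{u} k G) : locMap 𝔄 (0 : M ⟶ M') = 0 := by
  ext n x : 3
  funext v
  apply Subtype.ext
  funext g
  rfl

lemma lvlMap_zero (𝒰 : LevelSys G) (M M' : Rep.{u} k G) : lvlMap 𝒰 (0 : M ⟶ M') = 0 := by
  ext n x : 3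
  apply Subtype.ext
  funext g
  rfl

/-- Naturality of the total localisation map in the coefficients. -/
lemma resTot_naturality (f : M ⟶ M') :
    resTot 𝔄 M ≫ locMap 𝔄 f = lvlMap 𝔄.lvl f ≫ resTot 𝔄 M' := by
  ext n x : 3
  rfl

/-- **(b)** The map of compact-support complexes induced by a morphism of coefficients:
`(a, (b_v)_v) ↦ (f ∘ a, (f ∘ b_v)_v)`. -/
noncomputable def ccMap (f : M ⟶ M') : ccComplex 𝔄 M ⟶ ccComplex 𝔄 M' :=
  coneShiftMap (lvlMap 𝔄.lvl f) (locMap 𝔄 f) (resTot_naturality 𝔄 f)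

lemma ccMap_f (f : M ⟶ M') (n : ℕ) :
    (ccMap 𝔄 f).f n = coneShiftMapF (lvlMap 𝔄.lvl f) (locMap 𝔄 f) n := rfl

lemma ccMap_f_zero_apply (f : M ⟶ M') (a : lvlCochains 𝔄.lvl M 0) :
    ((ccMap 𝔄 f).f 0).hom a = ((lvlMap 𝔄.lvl f).f 0).hom a := rfl

lemma ccMap_f_succ_apply (f : M ⟶ M') (n : ℕ) (x : CcProd 𝔄 M n) :
    ((ccMap 𝔄 f).f (n + 1)).hom x
      = ((((lvlMap 𝔄.lvl f).f (n + 1)).hom x.1,
          fun v => ((lvlMap (𝔄.lvlv v) ((Rep.resFunctor (𝔄.loc v)).map f)).f n).hom (x.2 v)) :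
          CcProd 𝔄 M' n) := rfl

lemma ccMap_id (M : Rep.{u} k G) : ccMap 𝔄 (𝟙 M) = 𝟙 (ccComplex 𝔄 M) :=
  (coneShiftMap_congr (lvlMap_id 𝔄.lvl M) (locMap_id 𝔄 M) _).trans
    (coneShiftMap_id (resTot 𝔄 M))

lemma ccMap_comp (f : M ⟶ M') (g : M' ⟶ M'') :
    ccMap 𝔄 (f ≫ g) = ccMap 𝔄 f ≫ ccMap 𝔄 g :=
  (coneShiftMap_congr (lvlMap_comp 𝔄.lvl f g) (locMap_comp 𝔄 f g) _).trans
    (coneShiftMap_comp (lvlMap 𝔄.lvl f) (locMap 𝔄 f) (resTot_naturality 𝔄 f)
      (lvlMap 𝔄.lvl g) (locMap 𝔄 g) (resTot_naturality 𝔄 g))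

lemma ccMap_zero (M M' : Rep.{u} k G) : ccMap 𝔄 (0 : M ⟶ M') = 0 :=
  (coneShiftMap_congr (lvlMap_zero 𝔄.lvl M M') (locMap_zero 𝔄 M M') _).trans
    (coneShiftMap_zero (resTot 𝔄 M) (resTot 𝔄 M'))

/-- The compact-support complex as a functor of the coefficients. -/
noncomputable def ccFunctor : Rep.{u} k G ⥤ CochainComplex (ModuleCat.{u} k) ℕ where
  obj M := ccComplex 𝔄 M
  map f := ccMap 𝔄 f
  map_id M := ccMap_id 𝔄 M
  map_comp f g := ccMap_comp 𝔄 f g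

@[simp] lemma ccFunctor_obj (M : Rep.{u} k G) : (ccFunctor 𝔄).obj M = ccComplex 𝔄 M := rfl

@[simp] lemma ccFunctor_map (f : M ⟶ M') : (ccFunctor 𝔄).map f = ccMap 𝔄 f := rfl

instance ccFunctor_preservesZeroMorphisms : (ccFunctor 𝔄).PreservesZeroMorphisms where
  map_zero M M' := ccMap_zero 𝔄 M M'

end cc

/-! ### (c) functoriality of the twisted dual -/

section dualTwist

variable {k G : Type u} [CommRing k] [Group G] (χ : G →* kˣ)
variable {M M' M'' : Rep.{u} k G}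

/-- **(c)** The transpose `ξ ↦ ξ ∘ f` as a morphism of twisted duals (contravariant). -/
noncomputable def dualTwistMap (f : M ⟶ M') : M'.dualTwist χ ⟶ M.dualTwist χ :=
  Rep.ofHom ⟨Module.Dual.transpose (R := k) f.hom.toLinearMap, fun g => by
    refine LinearMap.ext fun ξ => LinearMap.ext fun m => ?_
    show (χ g : k) • ξ (M'.ρ g⁻¹ (f.hom m)) = (χ g : k) • ξ (f.hom (M.ρ g⁻¹ m))
    rw [Rep.hom_comm_apply]⟩

lemma dualTwistMap_hom_apply (f : M ⟶ M') (ξ : Module.Dual k M') :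
    (dualTwistMap χ f).hom ξ = (ξ ∘ₗ f.hom.toLinearMap : Module.Dual k M) := rfl

lemma dualTwistMap_id (M : Rep.{u} k G) : dualTwistMap χ (𝟙 M) = 𝟙 (M.dualTwist χ) := by
  ext ξ : 3
  rfl

lemma dualTwistMap_comp (f : M ⟶ M') (g : M' ⟶ M'') :
    dualTwistMap χ (f ≫ g) = dualTwistMap χ g ≫ dualTwistMap χ f := by
  ext ξ : 3
  rfl

lemma dualTwistMap_zero (M M' : Rep.{u} k G) : dualTwistMap χ (0 : M ⟶ M') = 0 := by
  ext ξ : 3
  refine LinearMap.ext fun m => ?_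
  show ξ ((0 : M ⟶ M').hom m) = 0
  exact map_zero ξ

end dualTwist

/-! ### (d) functoriality of the dual complex -/

section dualCx

variable {k : Type u} [CommRing k]
variable {K K' K'' : CochainComplex (ModuleCat.{u} k) ℕ}

/-- Components of the transpose map of dual complexes. -/
noncomputable def dualCxMapF (g : K ⟶ K') : ∀ n, dualX K' n ⟶ dualX K n
  | 0 => ModuleCat.ofHom (Module.Dual.transpose (g.f 3).hom)
  | 1 => ModuleCat.ofHom (Module.Dual.transpose (g.f 2).hom)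
  | 2 => ModuleCat.ofHom (Module.Dual.transpose (g.f 1).hom)
  | 3 => ModuleCat.ofHom (Module.Dual.transpose (g.f 0).hom)
  | _ + 4 => 0

lemma dualCxMapF_comm (g : K ⟶ K') (n : ℕ) :
    dualCxMapF g n ≫ dualD K n = dualD K' n ≫ dualCxMapF g (n + 1) := by
  have hg : ∀ (i : ℕ) (a : K.X i),
      (K'.d i (i + 1)).hom ((g.f i).hom a) = (g.f (i + 1)).hom ((K.d i (i + 1)).hom a) := by
    intro i a
    exact LinearMap.congr_fun (congrArg ModuleCat.Hom.hom (g.comm i (i + 1))) a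
  match n with
  | 0 =>
    have h0 : ∀ ξ : Module.Dual k (K'.X 3), (dualD K 0).hom ((dualCxMapF g 0).hom ξ)
        = (dualCxMapF g 1).hom ((dualD K' 0).hom ξ) := by
      intro ξ
      refine LinearMap.ext fun a => ?_
      show ξ ((g.f 3).hom ((K.d 2 3).hom a)) = ξ ((K'.d 2 3).hom ((g.f 2).hom a))
      rw [hg 2 a]
    ext ξ : 2
    exact h0 ξ
  | 1 =>
    have h1 : ∀ ξ : Module.Dual k (K'.X 2), (dualD K 1).hom ((dualCxMapF g 1).hom ξ)
        = (dualCxMapF g 2).hom ((dualD K' 1).hom ξ) := by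
      intro ξ
      refine LinearMap.ext fun a => ?_
      show ξ ((g.f 2).hom ((K.d 1 2).hom a)) = ξ ((K'.d 1 2).hom ((g.f 1).hom a))
      rw [hg 1 a]
    ext ξ : 2
    exact h1 ξ
  | 2 =>
    have h2 : ∀ ξ : Module.Dual k (K'.X 1), (dualD K 2).hom ((dualCxMapF g 2).hom ξ)
        = (dualCxMapF g 3).hom ((dualD K' 2).hom ξ) := by
      intro ξ
      refine LinearMap.ext fun a => ?_
      show ξ ((g.f 1).hom ((K.d 0 1).hom a)) = ξ ((K'.d 0 1).hom ((g.f 0).hom a))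
      rw [hg 0 a]
    ext ξ : 2
    exact h2 ξ
  | 3 =>
    show dualCxMapF g 3 ≫ (0 : dualX K 3 ⟶ dualX K 4) = (0 : dualX K' 3 ⟶ dualX K' 4) ≫ _
    rw [Limits.comp_zero, Limits.zero_comp]
  | n + 4 =>
    show (0 : dualX K' (n + 4) ⟶ dualX K (n + 4)) ≫ _ = _ ≫ (0 : dualX K' (n + 5) ⟶ dualX K (n + 5))
    rw [Limits.comp_zero, Limits.zero_comp]

/-- **(d)** The transpose of a morphism of complexes, `dualCx K' ⟶ dualCx K` (contravariant). -/
noncomputable def dualCxMap (g : K ⟶ K') : dualCx K' ⟶ dualCx K where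
  f n := dualCxMapF g n
  comm' i j (hij : _ = _) := by
    subst hij
    simp only [dualCx, CochainComplex.of_d]
    exact dualCxMapF_comm g i

@[simp] lemma dualCxMap_f (g : K ⟶ K') (n : ℕ) : (dualCxMap g).f n = dualCxMapF g n := rfl

lemma dualCxMap_f_zero_apply (g : K ⟶ K') (ξ : Module.Dual k (K'.X 3)) :
    ((dualCxMap g).f 0).hom ξ = (ξ ∘ₗ (g.f 3).hom : Module.Dual k (K.X 3)) := rfl

lemma dualCxMap_f_one_apply (g : K ⟶ K') (ξ : Module.Dual k (K'.X 2)) :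
    ((dualCxMap g).f 1).hom ξ = (ξ ∘ₗ (g.f 2).hom : Module.Dual k (K.X 2)) := rfl

lemma dualCxMap_f_two_apply (g : K ⟶ K') (ξ : Module.Dual k (K'.X 1)) :
    ((dualCxMap g).f 2).hom ξ = (ξ ∘ₗ (g.f 1).hom : Module.Dual k (K.X 1)) := rfl

lemma dualCxMap_f_three_apply (g : K ⟶ K') (ξ : Module.Dual k (K'.X 0)) :
    ((dualCxMap g).f 3).hom ξ = (ξ ∘ₗ (g.f 0).hom : Module.Dual k (K.X 0)) := rfl

lemma dualCxMap_id (K : CochainComplex (ModuleCat.{u} k) ℕ) :
    dualCxMap (𝟙 K) = 𝟙 (dualCx K) := by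
  ext n : 1
  match n with
  | 0 => ext ξ : 2; rfl
  | 1 => ext ξ : 2; rfl
  | 2 => ext ξ : 2; rfl
  | 3 => ext ξ : 2; rfl
  | n + 4 => ext ξ : 2; rfl

lemma dualCxMap_comp (g : K ⟶ K') (g' : K' ⟶ K'') :
    dualCxMap (g ≫ g') = dualCxMap g' ≫ dualCxMap g := by
  ext n : 1
  match n with
  | 0 => ext ξ : 2; rfl
  | 1 => ext ξ : 2; rfl
  | 2 => ext ξ : 2; rfl
  | 3 => ext ξ : 2; rfl
  | n + 4 => ext ξ : 2; rfl

lemma dualCxMap_zero (K K' : CochainComplex (ModuleCat.{u} k) ℕ) :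
    dualCxMap (0 : K ⟶ K') = 0 := by
  ext n : 1
  match n with
  | 0 =>
    have h : ∀ ξ : Module.Dual k (K'.X 3),
        (dualCxMapF (0 : K ⟶ K') 0).hom ξ = (0 : Module.Dual k (K.X 3)) :=
      fun ξ => LinearMap.ext fun a => map_zero ξ
    ext ξ : 2
    exact h ξ
  | 1 =>
    have h : ∀ ξ : Module.Dual k (K'.X 2),
        (dualCxMapF (0 : K ⟶ K') 1).hom ξ = (0 : Module.Dual k (K.X 2)) :=
      fun ξ => LinearMap.ext fun a => map_zero ξ
    ext ξ : 2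
    exact h ξ
  | 2 =>
    have h : ∀ ξ : Module.Dual k (K'.X 1),
        (dualCxMapF (0 : K ⟶ K') 2).hom ξ = (0 : Module.Dual k (K.X 1)) :=
      fun ξ => LinearMap.ext fun a => map_zero ξ
    ext ξ : 2
    exact h ξ
  | 3 =>
    have h : ∀ ξ : Module.Dual k (K'.X 0),
        (dualCxMapF (0 : K ⟶ K') 3).hom ξ = (0 : Module.Dual k (K.X 0)) :=
      fun ξ => LinearMap.ext fun a => map_zero ξ
    ext ξ : 2
    exact h ξ
  | n + 4 => rfl

end dualCx

/-! ### The dual side `M ↦ dualCx (C(G, M^*(χ)))` -/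

section dualSide

variable {k G : Type u} [CommRing k] [Group G] (𝔄 : ArithDatum k G)
variable {M M' M'' : Rep.{u} k G}

/-- The map on the dual side induced by a morphism of coefficients (covariant):
`dualCxMap (lvlMap (dualTwistMap f))`. -/
noncomputable def dualSideMap (f : M ⟶ M') :
    dualCx (lvlComplex 𝔄.lvl (M.dualTwist 𝔄.χ)) ⟶ dualCx (lvlComplex 𝔄.lvl (M'.dualTwist 𝔄.χ)) :=
  dualCxMap (lvlMap 𝔄.lvl (dualTwistMap 𝔄.χ f))

lemma dualSideMap_id (M : Rep.{u} k G) : dualSideMap 𝔄 (𝟙 M) = 𝟙 _ := by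
  rw [dualSideMap, dualTwistMap_id, lvlMap_id, dualCxMap_id]

lemma dualSideMap_comp (f : M ⟶ M') (g : M' ⟶ M'') :
    dualSideMap 𝔄 (f ≫ g) = dualSideMap 𝔄 f ≫ dualSideMap 𝔄 g := by
  rw [dualSideMap, dualTwistMap_comp, lvlMap_comp, dualCxMap_comp]
  rfl

lemma dualSideMap_zero (M M' : Rep.{u} k G) : dualSideMap 𝔄 (0 : M ⟶ M') = 0 := by
  rw [dualSideMap, dualTwistMap_zero, lvlMap_zero, dualCxMap_zero]

/-- The dual side as a (covariant) functor of the coefficients. -/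
noncomputable def dualSideFunctor : Rep.{u} k G ⥤ CochainComplex (ModuleCat.{u} k) ℕ where
  obj M := dualCx (lvlComplex 𝔄.lvl (M.dualTwist 𝔄.χ))
  map f := dualSideMap 𝔄 f
  map_id M := dualSideMap_id 𝔄 M
  map_comp f g := dualSideMap_comp 𝔄 f g

@[simp] lemma dualSideFunctor_obj (M : Rep.{u} k G) :
    (dualSideFunctor 𝔄).obj M = dualCx (lvlComplex 𝔄.lvl (M.dualTwist 𝔄.χ)) := rfl

@[simp] lemma dualSideFunctor_map (f : M ⟶ M') : (dualSideFunctor 𝔄).map f = dualSideMap 𝔄 f := rfl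

instance dualSideFunctor_preservesZeroMorphisms :
    (dualSideFunctor 𝔄).PreservesZeroMorphisms where
  map_zero M M' := dualSideMap_zero 𝔄 M M'

end dualSide

end Fermat.Agent.H53
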