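/-
P-CFT row 522 FR-NAT (helper53), part 2: (e) NATURALITY of `Θ`.

* `cupLvl_ev_naturality`, `cupLvl_ev_res_naturality` : `(f ∘ a) ∪ y = a ∪ (y ∘ f)` for the
  evaluation pairings (global and local).
* `ccCup_naturality`  : `ccCup M' (ccMap f x) y = ccCup M x (f^* y)`.
* `thetaF_naturality` : componentwise naturality.
* `theta_naturality`  : `ccMap 𝔄 f ≫ thetaHom M' T h' = thetaHom M T h ≫ dualSideMap 𝔄 f`.
* `thetaNatTrans T hc : ccFunctor 𝔄 ⟶ dualSideFunctor 𝔄`.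
-/
import Fermat.Agent.H53.Cft.FrNatDefs

set_option autoImplicit false

universe u

open CategoryTheory groupCohomology

namespace Fermat.Agent.H53

open Fermat.Agent.H13.Cft

variable {k G : Type u} [CommRing k] [Group G]

section cup

variable (χ : G →* kˣ) {M M' : Rep.{u} k G} (f : M ⟶ M')

/-- Equivariance of the transpose, pointwise. -/
lemma dualTwist_ρ_transpose (g : G) (ξ : Module.Dual k M') (m : M) :
    ((M.dualTwist χ).ρ g (ξ ∘ₗ f.hom.toLinearMap : Module.Dual k M)) m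
      = ((M'.dualTwist χ).ρ g ξ) (f.hom m) := by
  rw [Rep.dualTwist_ρ_apply, Rep.dualTwist_ρ_apply]
  show (χ g : k) • ξ (f.hom (M.ρ g⁻¹ m)) = (χ g : k) • ξ (M'.ρ g⁻¹ (f.hom m))
  rw [Rep.hom_comm_apply]

/-- Naturality of the cup product with the evaluation pairing (global form):
`(f ∘ a) ∪ y = a ∪ (y ∘ f)`. -/
lemma cupLvl_ev_naturality (𝒰 : LevelSys G) (i j : ℕ) (a : lvlCochains 𝒰 M i)
    (y : lvlCochains 𝒰 (M'.dualTwist χ) j) :
    cupLvl 𝒰 (evPairing χ M') i j (((lvlMap 𝒰 f).f i).hom a) y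
      = cupLvl 𝒰 (evPairing χ M) i j a (((lvlMap 𝒰 (dualTwistMap χ f)).f j).hom y) := by
  apply Subtype.ext
  funext g
  rw [cupLvl_apply, cupLvl_apply]
  exact (dualTwist_ρ_transpose χ f (headProd (i := i) (j := j) g)
    (y.1 fun t => g (Fin.natAdd i t)) (a.1 fun t => g (Fin.castAdd j t))).symm

/-- Naturality of the cup product with the evaluation pairing (local form). -/
lemma cupLvl_ev_res_naturality {H : Type u} [Group H] (r : H →* G) (𝒱 : LevelSys H) (i j : ℕ)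
    (b : lvlCochains 𝒱 (Rep.res r M) i) (y : lvlCochains 𝒱 (Rep.res r (M'.dualTwist χ)) j) :
    cupLvl 𝒱 ((evPairing χ M').res r) i j
        (((lvlMap 𝒱 ((Rep.resFunctor r).map f)).f i).hom b) y
      = cupLvl 𝒱 ((evPairing χ M).res r) i j b
          (((lvlMap 𝒱 ((Rep.resFunctor r).map (dualTwistMap χ f))).f j).hom y) := by
  apply Subtype.ext
  funext g
  rw [cupLvl_apply, cupLvl_apply]
  exact (dualTwist_ρ_transpose χ f (r (headProd (i := i) (j := j) g))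
    (y.1 fun t => g (Fin.natAdd i t)) (b.1 fun t => g (Fin.castAdd j t))).symm

end cup

section theta

variable (𝔄 : ArithDatum k G) {M M' : Rep.{u} k G} (f : M ⟶ M')

/-- Naturality of the local restriction maps. -/
lemma locRes_naturality {A B : Rep.{u} k G} (φ : A ⟶ B) (v : 𝔄.ι) (n : ℕ)
    (y : lvlCochains 𝔄.lvl A n) :
    locRes 𝔄 B v n (((lvlMap 𝔄.lvl φ).f n).hom y)
      = ((lvlMap (𝔄.lvlv v) ((Rep.resFunctor (𝔄.loc v)).map φ)).f n).hom (locRes 𝔄 A v n y) :=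
  rfl

/-- The action of `ccMap` on `C_c^(n+1)` in product coordinates. -/
noncomputable def ccProdMap (n : ℕ) : CcProd 𝔄 M n →ₗ[k] CcProd 𝔄 M' n :=
  LinearMap.prodMap ((lvlMap 𝔄.lvl f).f (n + 1)).hom
    (LinearMap.pi fun v =>
      ((lvlMap (𝔄.lvlv v) ((Rep.resFunctor (𝔄.loc v)).map f)).f n).hom ∘ₗ LinearMap.proj v)

lemma ccMap_f_succ_hom (n : ℕ) :
    ((ccMap 𝔄 f).f (n + 1)).hom = ccProdMap 𝔄 f n := rfl

/-- Naturality of the compact-support cup product. -/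
lemma ccCup_naturality (i j : ℕ) (x : CcProd 𝔄 M i)
    (y : lvlCochains 𝔄.lvl (M'.dualTwist 𝔄.χ) j) :
    ccCup 𝔄 M' i j (ccProdMap 𝔄 f i x) y
      = ccCup 𝔄 M i j x (((lvlMap 𝔄.lvl (dualTwistMap 𝔄.χ f)).f j).hom y) := by
  refine Prod.ext ?_ ?_
  · exact cupLvl_ev_naturality 𝔄.χ f 𝔄.lvl (i + 1) j x.1 y
  · funext v
    show cupLvl (𝔄.lvlv v) ((evPairing 𝔄.χ M').res (𝔄.loc v)) i j
        (((lvlMap (𝔄.lvlv v) ((Rep.resFunctor (𝔄.loc v)).map f)).f i).hom (x.2 v))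
        (locRes 𝔄 (M'.dualTwist 𝔄.χ) v j y)
      = cupLvl (𝔄.lvlv v) ((evPairing 𝔄.χ M).res (𝔄.loc v)) i j (x.2 v)
        (locRes 𝔄 (M.dualTwist 𝔄.χ) v j (((lvlMap 𝔄.lvl (dualTwistMap 𝔄.χ f)).f j).hom y))
    rw [locRes_naturality]
    exact cupLvl_ev_res_naturality 𝔄.χ f (𝔄.loc v) (𝔄.lvlv v) i j (x.2 v) _

variable {𝔄}
variable (T : Trace 𝔄)

lemma theta0_naturality (a : lvlCochains 𝔄.lvl M 0)
    (y : lvlCochains 𝔄.lvl (M'.dualTwist 𝔄.χ) 3) :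
    theta0 M' T (((lvlMap 𝔄.lvl f).f 0).hom a) y
      = theta0 M T a (((lvlMap 𝔄.lvl (dualTwistMap 𝔄.χ f)).f 3).hom y) := by
  show T.τ (cupLvl 𝔄.lvl (evPairing 𝔄.χ M') 0 3 (((lvlMap 𝔄.lvl f).f 0).hom a) y, 0)
    = T.τ (cupLvl 𝔄.lvl (evPairing 𝔄.χ M) 0 3 a
        (((lvlMap 𝔄.lvl (dualTwistMap 𝔄.χ f)).f 3).hom y), 0)
  rw [cupLvl_ev_naturality]

lemma theta1_naturality (x : CcProd 𝔄 M 0) (y : lvlCochains 𝔄.lvl (M'.dualTwist 𝔄.χ) 2) :
    theta1 M' T (ccProdMap 𝔄 f 0 x) y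
      = theta1 M T x (((lvlMap 𝔄.lvl (dualTwistMap 𝔄.χ f)).f 2).hom y) := by
  show -(T.τ (ccCup 𝔄 M' 0 2 (ccProdMap 𝔄 f 0 x) y))
    = -(T.τ (ccCup 𝔄 M 0 2 x (((lvlMap 𝔄.lvl (dualTwistMap 𝔄.χ f)).f 2).hom y)))
  rw [ccCup_naturality]

lemma theta2_naturality (x : CcProd 𝔄 M 1) (y : lvlCochains 𝔄.lvl (M'.dualTwist 𝔄.χ) 1) :
    theta2 M' T (ccProdMap 𝔄 f 1 x) y
      = theta2 M T x (((lvlMap 𝔄.lvl (dualTwistMap 𝔄.χ f)).f 1).hom y) := by
  show -(T.τ (ccCup 𝔄 M' 1 1 (ccProdMap 𝔄 f 1 x) y))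
    = -(T.τ (ccCup 𝔄 M 1 1 x (((lvlMap 𝔄.lvl (dualTwistMap 𝔄.χ f)).f 1).hom y)))
  rw [ccCup_naturality]

lemma theta3_naturality (x : CcProd 𝔄 M 2) (y : lvlCochains 𝔄.lvl (M'.dualTwist 𝔄.χ) 0) :
    theta3 M' T (ccProdMap 𝔄 f 2 x) y
      = theta3 M T x (((lvlMap 𝔄.lvl (dualTwistMap 𝔄.χ f)).f 0).hom y) := by
  show T.τ (ccCup 𝔄 M' 2 0 (ccProdMap 𝔄 f 2 x) y)
    = T.τ (ccCup 𝔄 M 2 0 x (((lvlMap 𝔄.lvl (dualTwistMap 𝔄.χ f)).f 0).hom y))
  rw [ccCup_naturality]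

/-- **(e)**, componentwise: `Θ_{M'} ∘ ccMap f = dualSideMap f ∘ Θ_M`. -/
lemma thetaF_naturality (n : ℕ) :
    (ccMap 𝔄 f).f n ≫ thetaF M' T n = thetaF M T n ≫ (dualSideMap 𝔄 f).f n := by
  match n with
  | 0 =>
    have h : ∀ a : lvlCochains 𝔄.lvl M 0,
        (thetaF M' T 0).hom (((ccMap 𝔄 f).f 0).hom a)
          = ((dualSideMap 𝔄 f).f 0).hom ((thetaF M T 0).hom a) := by
      intro a
      refine LinearMap.ext fun y => ?_
      exact theta0_naturality f T a y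
    ext a : 2
    exact h a
  | 1 =>
    have h : ∀ x : CcProd 𝔄 M 0,
        (thetaF M' T 1).hom (((ccMap 𝔄 f).f 1).hom x)
          = ((dualSideMap 𝔄 f).f 1).hom ((thetaF M T 1).hom x) := by
      intro x
      refine LinearMap.ext fun y => ?_
      exact theta1_naturality f T x y
    ext x : 2
    exact h x
  | 2 =>
    have h : ∀ x : CcProd 𝔄 M 1,
        (thetaF M' T 2).hom (((ccMap 𝔄 f).f 2).hom x)
          = ((dualSideMap 𝔄 f).f 2).hom ((thetaF M T 2).hom x) := by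
      intro x
      refine LinearMap.ext fun y => ?_
      exact theta2_naturality f T x y
    ext x : 2
    exact h x
  | 3 =>
    have h : ∀ x : CcProd 𝔄 M 2,
        (thetaF M' T 3).hom (((ccMap 𝔄 f).f 3).hom x)
          = ((dualSideMap 𝔄 f).f 3).hom ((thetaF M T 3).hom x) := by
      intro x
      refine LinearMap.ext fun y => ?_
      exact theta3_naturality f T x y
    ext x : 2
    exact h x
  | n + 4 =>
    show (ccMap 𝔄 f).f (n + 4) ≫ (0 : (ccComplex 𝔄 M').X (n + 4) ⟶ _)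
      = (0 : (ccComplex 𝔄 M).X (n + 4) ⟶ _) ≫ (dualSideMap 𝔄 f).f (n + 4)
    rw [Limits.comp_zero, Limits.zero_comp]

/-- **(e) NATURALITY of `Θ`.** -/
theorem theta_naturality (h : ThetaComm M T) (h' : ThetaComm M' T) :
    ccMap 𝔄 f ≫ thetaHom M' T h' = thetaHom M T h ≫ dualSideMap 𝔄 f := by
  ext n : 1
  exact thetaF_naturality f T n

/-- `Θ` as a natural transformation `C_c(-) ⟶ dualCx (C((-)^*(χ)))`. -/
noncomputable def thetaNatTrans (hc : ∀ M : Rep.{u} k G, ThetaComm M T) :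
    ccFunctor 𝔄 ⟶ dualSideFunctor 𝔄 where
  app M := thetaHom M T (hc M)
  naturality _ _ f := theta_naturality f T (hc _) (hc _)

@[simp] lemma thetaNatTrans_app (hc : ∀ M : Rep.{u} k G, ThetaComm M T) (M : Rep.{u} k G) :
    (thetaNatTrans T hc).app M = thetaHom M T (hc M) := rfl

end theta

end Fermat.Agent.H53
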