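/-
P-CFT row 522 FR-NAT (helper53), part 3: (f) EXACTNESS.

* `LinSES f g`                 : elementary short exactness of a pair of linear maps, with
  `LinSES.prodMap`, `LinSES.pi`, `LinSES.dual` (over a field), `LinSES.shortExact`,
  `LinSES.of_shortExact`.
* `rep_shortExact_iff`         : short exactness in `Rep k G` on underlying linear maps.
* `lvlMap_linSES`              : degreewise form of `LvlSesStatement`.
* `ccFunctor_shortExact`       : `(X.map (ccFunctor 𝔄)).ShortExact` (smooth middle term).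
* `dualTwist_shortExact`       : `0 → X₃^*(χ) → X₂^*(χ) → X₁^*(χ) → 0` (over a field).
* `dualSideFunctor_shortExact` : `(X.map (dualSideFunctor 𝔄)).ShortExact` (over a field,
  trivialised middle term).
* `ccMap_shortExact`, `dualSideMap_shortExact` : the same for explicit `ShortComplex.mk`,
  under `IsGood 𝔄 X.X₂`.
-/
import Fermat.Agent.H53.Cft.FrNat

set_option autoImplicit false

universe u

open CategoryTheory groupCohomology

namespace Fermat.Agent.H53

open Fermat.Agent.H13.Cft

/-! ### Elementary short exact sequences of linear maps -/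

section linear

variable {k : Type*} [CommRing k]

/-- `0 → A → B → C → 0` is exact. -/
structure LinSES {A B C : Type*} [AddCommGroup A] [AddCommGroup B] [AddCommGroup C]
    [Module k A] [Module k B] [Module k C] (f : A →ₗ[k] B) (g : B →ₗ[k] C) : Prop where
  inj : Function.Injective f
  exact : ∀ b, g b = 0 ↔ ∃ a, f a = b
  surj : Function.Surjective g

variable {A B C A' B' C' : Type*} [AddCommGroup A] [AddCommGroup B] [AddCommGroup C]
  [Module k A] [Module k B] [Module k C] [AddCommGroup A'] [AddCommGroup B'] [AddCommGroup C']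
  [Module k A'] [Module k B'] [Module k C']

lemma LinSES.comp_apply {f : A →ₗ[k] B} {g : B →ₗ[k] C} (h : LinSES f g) (a : A) :
    g (f a) = 0 := (h.exact (f a)).2 ⟨a, rfl⟩

lemma LinSES.prodMap {f : A →ₗ[k] B} {g : B →ₗ[k] C} {f' : A' →ₗ[k] B'} {g' : B' →ₗ[k] C'}
    (h : LinSES f g) (h' : LinSES f' g') : LinSES (f.prodMap f') (g.prodMap g') where
  inj := by
    rintro ⟨a, a'⟩ ⟨b, b'⟩ hab
    have h1 : f a = f b := congrArg Prod.fst hab
    have h2 : f' a' = f' b' := congrArg Prod.snd hab
    rw [h.inj h1, h'.inj h2]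
  exact := by
    rintro ⟨b, b'⟩
    constructor
    · intro hb
      have h1 : g b = 0 := congrArg Prod.fst hb
      have h2 : g' b' = 0 := congrArg Prod.snd hb
      obtain ⟨a, ha⟩ := (h.exact b).1 h1
      obtain ⟨a', ha'⟩ := (h'.exact b').1 h2
      exact ⟨(a, a'), Prod.ext ha ha'⟩
    · rintro ⟨⟨a, a'⟩, haa⟩
      have h1 : f a = b := congrArg Prod.fst haa
      have h2 : f' a' = b' := congrArg Prod.snd haa
      refine Prod.ext ?_ ?_
      · show g b = 0
        rw [← h1]; exact h.comp_apply a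
      · show g' b' = 0
        rw [← h2]; exact h'.comp_apply a'
  surj := by
    rintro ⟨c, c'⟩
    obtain ⟨b, hb⟩ := h.surj c
    obtain ⟨b', hb'⟩ := h'.surj c'
    exact ⟨(b, b'), Prod.ext hb hb'⟩

lemma LinSES.pi {ι : Type*} {A B C : ι → Type*} [∀ v, AddCommGroup (A v)]
    [∀ v, AddCommGroup (B v)] [∀ v, AddCommGroup (C v)] [∀ v, Module k (A v)]
    [∀ v, Module k (B v)] [∀ v, Module k (C v)] {f : ∀ v, A v →ₗ[k] B v}
    {g : ∀ v, B v →ₗ[k] C v} (h : ∀ v, LinSES (f v) (g v)) :
    LinSES (LinearMap.pi fun v => f v ∘ₗ LinearMap.proj v)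
      (LinearMap.pi fun v => g v ∘ₗ LinearMap.proj v) where
  inj := by
    intro a b hab
    funext v
    exact (h v).inj (congrFun hab v)
  exact := by
    intro b
    constructor
    · intro hb
      have hv : ∀ v, ∃ a : A v, f v a = b v := fun v => ((h v).exact (b v)).1 (congrFun hb v)
      choose a ha using hv
      exact ⟨a, funext ha⟩
    · rintro ⟨a, rfl⟩
      funext v
      exact (h v).comp_apply (a v)
  surj := by
    intro c
    have hv : ∀ v, ∃ b : B v, g v b = c v := fun v => (h v).surj (c v)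
    choose b hb using hv
    exact ⟨b, funext hb⟩

/-- A pair of maps between trivial modules is short exact. -/
lemma LinSES.of_subsingleton [Subsingleton A] [Subsingleton B] [Subsingleton C]
    (f : A →ₗ[k] B) (g : B →ₗ[k] C) : LinSES f g where
  inj := fun _ _ _ => Subsingleton.elim _ _
  exact := fun _ => ⟨fun _ => ⟨0, Subsingleton.elim _ _⟩, fun _ => Subsingleton.elim _ _⟩
  surj := fun _ => ⟨0, Subsingleton.elim _ _⟩

end linear

section dual

variable {k : Type*} [Field k] {A B C : Type*} [AddCommGroup A] [AddCommGroup B]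
  [AddCommGroup C] [Module k A] [Module k B] [Module k C]

/-- Over a field the dual of a short exact sequence is short exact. -/
lemma LinSES.dual {f : A →ₗ[k] B} {g : B →ₗ[k] C} (h : LinSES f g) :
    LinSES (Module.Dual.transpose (R := k) g) (Module.Dual.transpose (R := k) f) where
  inj := LinearMap.dualMap_injective_of_surjective h.surj
  exact := by
    intro ξ
    have hr : LinearMap.range f = LinearMap.ker g := by
      ext b
      rw [LinearMap.mem_range, LinearMap.mem_ker]
      exact ((h.exact b).symm)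
    have h1 : LinearMap.range g.dualMap = LinearMap.ker f.dualMap := by
      rw [LinearMap.range_dualMap_eq_dualAnnihilator_ker,
        LinearMap.ker_dualMap_eq_dualAnnihilator_range, hr]
    have h2 : ξ ∈ LinearMap.ker f.dualMap ↔ ξ ∈ LinearMap.range g.dualMap := by rw [h1]
    rw [LinearMap.mem_ker, LinearMap.mem_range] at h2
    exact h2
  surj := LinearMap.dualMap_surjective_of_injective h.inj

end dual

section moduleCat

variable {k : Type u} [CommRing k]

lemma LinSES.shortExact {S : ShortComplex (ModuleCat.{u} k)} (h : LinSES S.f.hom S.g.hom) :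
    S.ShortExact :=
  ModuleCat.shortComplex_shortExact S
    (fun b => by
      rw [Set.mem_range]
      exact h.exact b)
    h.inj h.surj

lemma LinSES.of_shortExact {S : ShortComplex (ModuleCat.{u} k)} (h : S.ShortExact) :
    LinSES S.f.hom S.g.hom where
  inj := h.moduleCat_injective_f
  exact := fun b => by
    have := (ShortComplex.ShortExact.moduleCat_exact_iff_function_exact S).1 h.exact b
    rw [Set.mem_range] at this
    exact this
  surj := h.moduleCat_surjective_g

variable {G : Type u} [Group G]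

/-- Short exactness in `Rep k G` can be checked on the underlying linear maps. -/
lemma rep_shortExact_iff (S : ShortComplex (Rep.{u} k G)) :
    S.ShortExact ↔ LinSES S.f.hom.toLinearMap S.g.hom.toLinearMap := by
  constructor
  · intro h
    have h2 : (S.map (forget₂ (Rep.{u} k G) (ModuleCat.{u} k))).ShortExact := by
      have := h.mono_f
      have := h.epi_g
      exact h.map _
    exact LinSES.of_shortExact h2
  · intro h
    have h2 : (S.map (forget₂ (Rep.{u} k G) (ModuleCat.{u} k))).ShortExact :=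
      LinSES.shortExact (S := S.map (forget₂ (Rep.{u} k G) (ModuleCat.{u} k))) h
    exact
      { exact := (ShortComplex.exact_map_iff_of_faithful S
          (forget₂ (Rep.{u} k G) (ModuleCat.{u} k))).1 h2.exact
        mono_f := (Rep.mono_iff_injective S.f).2 h.inj
        epi_g := (Rep.epi_iff_surjective S.g).2 h.surj }

end moduleCat

/-! ### Exactness of the level complexes, degreewise -/

section lvl

variable {k G : Type u} [CommRing k] [Group G]

/-- Degreewise form of `LvlSesStatement`. -/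
lemma lvlMap_linSES (hses : LvlSesStatement.{u}) (𝒰 : LevelSys G)
    (X : ShortComplex (Rep.{u} k G)) (hX : X.ShortExact) (hsm : IsSmooth 𝒰 X.X₂) (n : ℕ) :
    LinSES ((lvlMap 𝒰 X.f).f n).hom ((lvlMap 𝒰 X.g).f n).hom := by
  have h := hses 𝒰 X hX hsm
  rw [HomologicalComplex.shortExact_iff_degreewise_shortExact] at h
  exact LinSES.of_shortExact (h n)

lemma isSmooth_res {H : Type u} [Group H] {𝒱 : LevelSys H} {𝒰 : LevelSys G} (r : H →* G)
    (hr : 𝒱.Compat 𝒰 r) {M : Rep.{u} k G} (hsm : IsSmooth 𝒰 M) :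
    IsSmooth 𝒱 (Rep.res r M) := by
  intro m
  obtain ⟨N, hN, h⟩ := hsm m
  obtain ⟨N', hN', hle⟩ := hr N hN
  exact ⟨N', hN', fun s hs => h (r s) (hle hs)⟩

variable (𝔄 : ArithDatum k G)

/-- Degreewise exactness of the product of the local level complexes. -/
lemma locMap_linSES (hses : LvlSesStatement.{u}) (X : ShortComplex (Rep.{u} k G))
    (hX : X.ShortExact) (hsm : IsSmooth 𝔄.lvl X.X₂) (n : ℕ) :
    LinSES ((locMap 𝔄 X.f).f n).hom ((locMap 𝔄 X.g).f n).hom := by
  have hv : ∀ v : 𝔄.ι,
      LinSES ((lvlMap (𝔄.lvlv v) ((Rep.resFunctor (𝔄.loc v)).map X.f)).f n).hom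
        ((lvlMap (𝔄.lvlv v) ((Rep.resFunctor (𝔄.loc v)).map X.g)).f n).hom := fun v =>
    lvlMap_linSES hses (𝔄.lvlv v) (X.map (Rep.resFunctor (𝔄.loc v)))
      ((Rep.shortExact_res (𝔄.loc v)).2 hX) (isSmooth_res (𝔄.loc v) (𝔄.compat v) hsm) n
  exact LinSES.pi hv

/-- Degreewise exactness of the compact-support complexes. -/
lemma ccMap_linSES (hses : LvlSesStatement.{u}) (X : ShortComplex (Rep.{u} k G))
    (hX : X.ShortExact) (hsm : IsSmooth 𝔄.lvl X.X₂) (n : ℕ) :
    LinSES ((ccMap 𝔄 X.f).f n).hom ((ccMap 𝔄 X.g).f n).hom := by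
  cases n with
  | zero => exact lvlMap_linSES hses 𝔄.lvl X hX hsm 0
  | succ n =>
    exact LinSES.prodMap (lvlMap_linSES hses 𝔄.lvl X hX hsm (n + 1))
      (locMap_linSES 𝔄 hses X hX hsm n)

/-- **(f), compact-support side**: `0 → C_c(X₁) → C_c(X₂) → C_c(X₃) → 0` is a short exact
sequence of complexes. -/
theorem ccFunctor_shortExact (hses : LvlSesStatement.{u}) (X : ShortComplex (Rep.{u} k G))
    (hX : X.ShortExact) (hsm : IsSmooth 𝔄.lvl X.X₂) : (X.map (ccFunctor 𝔄)).ShortExact :=
  HomologicalComplex.shortExact_of_degreewise_shortExact _ fun n =>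
    LinSES.shortExact
      (S := (X.map (ccFunctor 𝔄)).map (HomologicalComplex.eval _ _ n))
      (ccMap_linSES 𝔄 hses X hX hsm n)

end lvl

/-! ### Exactness of the dual side -/

section dualSide

variable {k G : Type u} [Field k] [Group G]

/-- The twisted dual of a short complex. -/
noncomputable def dualTwistShortComplex (χ : G →* kˣ) (X : ShortComplex (Rep.{u} k G)) :
    ShortComplex (Rep.{u} k G) :=
  ShortComplex.mk (dualTwistMap χ X.g) (dualTwistMap χ X.f)
    (by rw [← dualTwistMap_comp, X.zero, dualTwistMap_zero])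

/-- Over a field, `M ↦ M^*(χ)` is exact. -/
lemma dualTwist_shortExact (χ : G →* kˣ) (X : ShortComplex (Rep.{u} k G)) (hX : X.ShortExact) :
    (dualTwistShortComplex χ X).ShortExact :=
  (rep_shortExact_iff _).2 (((rep_shortExact_iff X).1 hX).dual)

lemma isTrivialisedBy_dualTwist (𝔄 : ArithDatum k G) {M : Rep.{u} k G}
    (h : IsTrivialisedBy 𝔄.lvl M) : IsTrivialisedBy 𝔄.lvl (M.dualTwist 𝔄.χ) := by
  obtain ⟨N, hN, hM⟩ := h
  obtain ⟨N', hN', hχ⟩ := 𝔄.χ_level
  obtain ⟨N'', hN'', hle⟩ := 𝔄.lvl.directed N hN N' hN'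
  refine ⟨N'', hN'', fun s hs => ?_⟩
  have hs1 : s ∈ N := (hle.trans inf_le_left) hs
  have hs2 : s ∈ N' := (hle.trans inf_le_right) hs
  refine LinearMap.ext fun ξ => ?_
  rw [Rep.dualTwist_ρ_apply, hχ s hs2, hM s⁻¹ (N.inv_mem hs1)]
  refine LinearMap.ext fun m => ?_
  simp

variable (𝔄 : ArithDatum k G)

/-- Degreewise exactness of the dual side. -/
lemma dualSideMap_linSES (hses : LvlSesStatement.{u}) (X : ShortComplex (Rep.{u} k G))
    (hX : X.ShortExact) (ht : IsTrivialisedBy 𝔄.lvl X.X₂) (n : ℕ) :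
    LinSES ((dualSideMap 𝔄 X.f).f n).hom ((dualSideMap 𝔄 X.g).f n).hom := by
  have hY : ∀ m, LinSES ((lvlMap 𝔄.lvl (dualTwistMap 𝔄.χ X.g)).f m).hom
      ((lvlMap 𝔄.lvl (dualTwistMap 𝔄.χ X.f)).f m).hom := fun m =>
    lvlMap_linSES hses 𝔄.lvl (dualTwistShortComplex 𝔄.χ X) (dualTwist_shortExact 𝔄.χ X hX)
      (isTrivialisedBy_dualTwist 𝔄 ht).isSmooth m
  match n with
  | 0 => exact (hY 3).dual
  | 1 => exact (hY 2).dual
  | 2 => exact (hY 1).dual
  | 3 => exact (hY 0).dual
  | n + 4 =>
    have h1 : Subsingleton (dualX (lvlComplex 𝔄.lvl (X.X₁.dualTwist 𝔄.χ)) (n + 4)) :=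
      inferInstanceAs (Subsingleton PUnit)
    have h2 : Subsingleton (dualX (lvlComplex 𝔄.lvl (X.X₂.dualTwist 𝔄.χ)) (n + 4)) :=
      inferInstanceAs (Subsingleton PUnit)
    have h3 : Subsingleton (dualX (lvlComplex 𝔄.lvl (X.X₃.dualTwist 𝔄.χ)) (n + 4)) :=
      inferInstanceAs (Subsingleton PUnit)
    exact @LinSES.of_subsingleton k _ _ _ _ _ _ _ _ _ _ h1 h2 h3 _ _

/-- **(f), dual side**: `0 → D(X₁) → D(X₂) → D(X₃) → 0`, `D(M) = dualCx (C(G, M^*(χ)))`, is a
short exact sequence of complexes. -/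
theorem dualSideFunctor_shortExact (hses : LvlSesStatement.{u})
    (X : ShortComplex (Rep.{u} k G)) (hX : X.ShortExact) (ht : IsTrivialisedBy 𝔄.lvl X.X₂) :
    (X.map (dualSideFunctor 𝔄)).ShortExact :=
  HomologicalComplex.shortExact_of_degreewise_shortExact _ fun n =>
    LinSES.shortExact
      (S := (X.map (dualSideFunctor 𝔄)).map (HomologicalComplex.eval _ _ n))
      (dualSideMap_linSES 𝔄 hses X hX ht n)

/-- **(f)** in the form of the row: both sides are short exact when `X.X₂` is good. -/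
theorem frNat_shortExact (hses : LvlSesStatement.{u}) (X : ShortComplex (Rep.{u} k G))
    (hX : X.ShortExact) (hg : IsGood 𝔄 X.X₂) :
    (X.map (ccFunctor 𝔄)).ShortExact ∧ (X.map (dualSideFunctor 𝔄)).ShortExact :=
  ⟨ccFunctor_shortExact 𝔄 hses X hX hg.2.isSmooth, dualSideFunctor_shortExact 𝔄 hses X hX hg.2⟩

/-- The short complex `(ccMap f, ccMap g)`, explicitly. -/
theorem ccMap_shortExact (hses : LvlSesStatement.{u}) (X : ShortComplex (Rep.{u} k G))
    (hX : X.ShortExact) (hg : IsGood 𝔄 X.X₂) :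
    (ShortComplex.mk (ccMap 𝔄 X.f) (ccMap 𝔄 X.g)
      (by rw [← ccMap_comp, X.zero, ccMap_zero])).ShortExact :=
  ccFunctor_shortExact 𝔄 hses X hX hg.2.isSmooth

/-- The short complex `(dualSideMap f, dualSideMap g)`, explicitly. -/
theorem dualSideMap_shortExact (hses : LvlSesStatement.{u}) (X : ShortComplex (Rep.{u} k G))
    (hX : X.ShortExact) (hg : IsGood 𝔄 X.X₂) :
    (ShortComplex.mk (dualSideMap 𝔄 X.f) (dualSideMap 𝔄 X.g)
      (by rw [← dualSideMap_comp, X.zero, dualSideMap_zero])).ShortExact :=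
  dualSideFunctor_shortExact 𝔄 hses X hX hg.2

end dualSide

end Fermat.Agent.H53
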