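/-
helper53 (P-CFT row 1036, TR-UNR): an `S`-level global `μ_p`-valued 2-cocycle is locally
trivial at every `q ∉ S`, from `UnramTrivStatement` (row 1035) and `TraceDictStatement`
(row 1033).
-/
import Fermat.Agent.H25.Recip.TraceInterfaces

set_option autoImplicit false
set_option synthInstance.maxHeartbeats 400000
set_option linter.style.haveILetI false
set_option linter.unusedVariables false

namespace Fermat.Agent.H53

open Fermat.Agent.H13.Cft Fermat.Agent.H78.CFT Fermat.Agent.H81.Local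
open Fermat.Agent.H25.Recip ExtCitation

/-- The values of `zetaPow` are `p`-th roots of unity. -/
theorem tru_zetaPow_pow {p : ℕ} {X : Type} (ζ : Qbˣ) (hζ : ((ζ : Qbˣ) : Qb) ^ p = 1)
    (c : X → ZMod p) (x : X) : (((zetaPow ζ c x : Qbˣ) : Qb)) ^ p = 1 := by
  show (((ζ ^ (c x).val : Qbˣ) : Qb)) ^ p = 1
  rw [Units.val_pow_eq_pow_val, ← pow_mul, mul_comm, pow_mul, hζ, one_pow]

/-- **[TR-UNR]** (row 1036). -/
theorem traceUnram (h : UnramTrivStatement) (hd : TraceDictStatement) :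
    TraceUnramStatement := by
  intro p _ ζ hζ S hpS x hx q _ hqS
  have hp : p.Prime := Fact.out
  obtain ⟨hG, -, -⟩ := hd p ζ hζ
  obtain ⟨-, hcoc⟩ := hG S x
  have hcoc0 := hcoc hx
  obtain ⟨N, hN, hlvl⟩ := x.2
  obtain ⟨hNn, hNf, ⟨F, hF, hFN⟩, hI⟩ := hN
  refine h q (localField q) (isLocalFinite_localField q) _ ?_
    ⟨N, hNn, ⟨F, hF, hFN⟩, hI ⟨q, Fact.out⟩ hqS (padicPlace q) (padicPlace_liesOverPrime q), ?_⟩ ?_
  · -- the restriction of a cocycle is a cocycle
    intro g k j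
    exact hcoc0 (Subgroup.inclusion (IntermediateField.fixingSubgroup_le bot_le) g)
      (Subgroup.inclusion (IntermediateField.fixingSubgroup_le bot_le) k)
      (Subgroup.inclusion (IntermediateField.fixingSubgroup_le bot_le) j)
  · -- right invariance
    intro g k n m hn hm
    have h1 := hlvl.1 ![(g : Qb ≃ₐ[ℚ] Qb), (k : Qb ≃ₐ[ℚ] Qb)]
      ![(n : Qb ≃ₐ[ℚ] Qb), (m : Qb ≃ₐ[ℚ] Qb)] (by
        intro i
        fin_cases i
        · exact hn
        · exact hm)
    have h2 : (![(g : Qb ≃ₐ[ℚ] Qb), (k : Qb ≃ₐ[ℚ] Qb)] *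
        ![(n : Qb ≃ₐ[ℚ] Qb), (m : Qb ≃ₐ[ℚ] Qb)]) =
        ![((g * n : (localField q).fixingSubgroup) : Qb ≃ₐ[ℚ] Qb),
          ((k * m : (localField q).fixingSubgroup) : Qb ≃ₐ[ℚ] Qb)] := by
      funext i
      fin_cases i <;> rfl
    rw [h2] at h1
    show ζ ^ (x.1 ![_, _]).val = ζ ^ (x.1 ![_, _]).val
    exact congrArg (fun t : ZMod p => ζ ^ t.val) h1
  · -- the values are roots of unity
    intro y
    have h1 : qVal q (((resCochain₂ (bot_le : Q0 ≤ localField q)
        (zetaPow ζ (globCoch x.1)) y : Qbˣ) : Qb)) ^ p = 1 := by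
      rw [← map_pow]
      have h2 : (((resCochain₂ (bot_le : Q0 ≤ localField q)
          (zetaPow ζ (globCoch x.1)) y : Qbˣ) : Qb)) ^ p = 1 :=
        tru_zetaPow_pow ζ hζ.pow_eq_one _ _
      rw [h2, map_one]
    exact (pow_eq_one_iff_of_nonneg zero_le hp.ne_zero).mp h1

end Fermat.Agent.H53
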