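/-
helper53 (P-CFT row 1036, TR-UNR): the UNCONDITIONAL statement, from helper49's
`unramTrivU` (row 1035) and helper62's `traceDict` (row 1033).
-/
import Fermat.Agent.H53.Cft.TraceUnram
import Fermat.Agent.H49.TR.UnramTrivU
import Fermat.Agent.H62.Cft.TraceDict

set_option autoImplicit false

namespace Fermat.Agent.H53

/-- **[TR-UNR]** (row 1036), unconditional. -/
theorem traceUnramU : Fermat.Agent.H25.Recip.TraceUnramStatement :=
  traceUnram Fermat.Agent.H49.TR.unramTrivU Fermat.Agent.H62.Cft.traceDict

end Fermat.Agent.H53
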